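import Fermat.Agent.AndreAlgebraicity.Powers

/-!
# The infinite place

Schwarz's lemma for the pull-back of `∑ A d j X ^ d f ^ j` along a uniformisation, and the
geometric bound which a uniformisation gives for the coefficients of `f`.
-/

set_option autoImplicit false

noncomputable section

namespace FA.AndreAlgebraicity

open Finset Filter
open scoped Topology

/-- A uniformisation bounds the coefficients geometrically. -/
theorem exists_abs_bound {a : ℕ → ℚ} {R : ℝ} (hR : 0 < R) {u v : ℂ → ℂ}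
    (hu : DifferentiableAt ℂ u 0) (hu0 : u 0 = 0) (hu1 : deriv u 0 ≠ 0)
    (hser : ∀ᶠ w in 𝓝 (0 : ℂ), HasSum (fun n => (a n : ℂ) * u w ^ n) (v w)) :
    ∃ C : ℝ, 0 ≤ C ∧ ∀ n, |(a n : ℝ)| ≤ C ^ (n + 1) := by
  have hne : ∀ᶠ w in 𝓝[≠] (0 : ℂ), u w ≠ u 0 := hu.hasDerivAt.eventually_ne hu1
  obtain ⟨w, ⟨hw, hwR⟩, hwu⟩ := ((hser.and (Metric.ball_mem_nhds (0 : ℂ) hR)).filter_mono
    nhdsWithin_le_nhds |>.and hne).exists
  obtain ⟨B, hB⟩ := hw.summable.tendsto_atTop_zero.norm.bddAbove_range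
  obtain ⟨x, hx⟩ : ∃ x : ℝ, x = ‖u w‖ := ⟨_, rfl⟩
  have hx0 : 0 < x := hx ▸ norm_pos_iff.2 (hu0 ▸ hwu)
  refine ⟨max (max B 1) x⁻¹ * max (max B 1) x⁻¹, mul_self_nonneg _, fun n => ?_⟩
  obtain ⟨M, hM⟩ : ∃ M : ℝ, M = max (max B 1) x⁻¹ := ⟨_, rfl⟩
  rw [← hM]
  have hM1 : 1 ≤ M := hM ▸ (le_max_right B 1).trans (le_max_left _ _)
  have h := hB (Set.mem_range_self n)
  simp only [norm_mul, norm_pow, Complex.norm_ratCast, ← hx] at h
  calc |(a n : ℝ)| ≤ B * (x⁻¹) ^ n := by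
        rw [inv_pow, ← div_eq_mul_inv, le_div_iff₀ (pow_pos hx0 n)]
        exact h
    _ ≤ M * M ^ n := mul_le_mul (hM ▸ (le_max_left B 1).trans (le_max_left _ _))
        (pow_le_pow_left₀ (inv_nonneg.2 hx0.le) (hM ▸ le_max_right _ _) n) (by positivity)
        (by linarith)
    _ ≤ (M * M) ^ (n + 1) := by
        rw [← pow_succ']
        exact pow_le_pow_left₀ (by linarith) (le_mul_of_one_le_left (by linarith) hM1) _

/-- **The bound at infinity.** -/
theorem exists_infinite_bound {a : ℕ → ℚ} {C : ℝ} (hC : 0 ≤ C)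
    (hab : ∀ n, |(a n : ℝ)| ≤ C ^ (n + 1)) {g₁ h₁ g₂ h₂ : ℂ → ℂ} {R R' : ℝ}
    (hg₁ : DifferentiableOn ℂ g₁ (Metric.ball 0 R)) (hh₁ : DifferentiableOn ℂ h₁ (Metric.ball 0 R))
    (hg₂ : DifferentiableOn ℂ g₂ (Metric.ball 0 R)) (hh₂ : DifferentiableOn ℂ h₂ (Metric.ball 0 R))
    (hg₁0 : g₁ 0 ≠ 0) (hg₂0 : g₂ 0 ≠ 0) (hh₁0 : h₁ 0 = 0)
    (hser : ∀ᶠ w in 𝓝 (0 : ℂ), HasSum (fun n => (a n : ℂ) * (h₁ w / g₁ w) ^ n) (h₂ w / g₂ w))
    (hR' : 0 < R') (hR'R : R' < R) :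
    ∃ B : ℝ, 1 ≤ B ∧ ∀ (E J : ℕ) (A : ℕ → ℕ → ℤ) (H : ℝ),
      (∀ d < E, ∀ j < J, |(A d j : ℝ)| ≤ H) → ∀ N : ℕ,
      (∀ n < N, PowerSeries.coeff n (auxSeries a E J A) = 0) →
      |((PowerSeries.coeff N (auxSeries a E J A) : ℚ) : ℝ)| *
        (‖deriv (fun w => h₁ w / g₁ w) 0‖ * R') ^ N ≤ (E * J : ℕ) * H * B ^ (E + J) := by
  obtain ⟨C, hC1, hab⟩ : ∃ C : ℝ, 1 ≤ C ∧ ∀ n, |(a n : ℝ)| ≤ C ^ (n + 1) :=
    ⟨max C 1, le_max_right _ _, fun n =>
      (hab n).trans (pow_le_pow_left₀ hC (le_max_left _ _) _)⟩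
  have hC : 0 ≤ C := by linarith
  have hR0 : 0 < R := hR'.trans hR'R
  have hnhds : Metric.ball (0 : ℂ) R ∈ 𝓝 (0 : ℂ) := Metric.ball_mem_nhds _ hR0
  obtain ⟨u, hu⟩ : ∃ u : ℂ → ℂ, u = fun w => h₁ w / g₁ w := ⟨_, rfl⟩
  rw [← hu]
  have hud : DifferentiableAt ℂ u 0 :=
    hu ▸ (hh₁.differentiableAt hnhds).div (hg₁.differentiableAt hnhds) hg₁0
  have hu0 : u 0 = 0 := by rw [hu]; simp [hh₁0]
  -- a common bound on the closed disc
  have hsub : Metric.closedBall (0 : ℂ) R' ⊆ Metric.ball 0 R :=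
    Metric.closedBall_subset_ball hR'R
  have hK := isCompact_closedBall (0 : ℂ) R'
  obtain ⟨b₁, hb₁⟩ := hK.exists_bound_of_continuousOn (hg₁.continuousOn.mono hsub)
  obtain ⟨b₂, hb₂⟩ := hK.exists_bound_of_continuousOn (hh₁.continuousOn.mono hsub)
  obtain ⟨b₃, hb₃⟩ := hK.exists_bound_of_continuousOn (hg₂.continuousOn.mono hsub)
  obtain ⟨b₄, hb₄⟩ := hK.exists_bound_of_continuousOn (hh₂.continuousOn.mono hsub)
  obtain ⟨b, hb⟩ : ∃ b : ℝ, b = max (max b₁ b₂) (max b₃ b₄) := ⟨_, rfl⟩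
  obtain ⟨β, hβ⟩ : ∃ β : ℝ, β = min (min ‖g₁ 0‖ ‖g₂ 0‖) 1 := ⟨_, rfl⟩
  have hβ0 : 0 < β :=
    hβ ▸ lt_min (lt_min (norm_pos_iff.2 hg₁0) (norm_pos_iff.2 hg₂0)) one_pos
  refine ⟨max (b / β) 1, le_max_right _ _, fun E J A H hA N hN => ?_⟩
  obtain ⟨G, hG⟩ : ∃ G : ℂ → ℂ, G = fun w => ∑ d ∈ range E, ∑ j ∈ range J,
      (A d j : ℂ) * (h₁ w ^ d * g₁ w ^ (E - d) * (h₂ w ^ j * g₂ w ^ (J - j))) := ⟨_, rfl⟩
  have hGd : DifferentiableOn ℂ G (Metric.ball 0 R) := hG ▸ DifferentiableOn.fun_sum fun d _ =>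
    DifferentiableOn.fun_sum fun j _ =>
      (((hh₁.pow d).mul (hg₁.pow (E - d))).mul ((hh₂.pow j).mul (hg₂.pow (J - j)))).const_mul _
  obtain ⟨c, hc⟩ : ∃ c : ℕ → ℂ,
      c = fun n => ((PowerSeries.coeff n (auxSeries a E J A) : ℚ) : ℂ) := ⟨_, rfl⟩
  obtain ⟨ψ, hψ⟩ : ∃ ψ : ℂ → ℂ, ψ = fun x => ∑' n, c (n + N) * x ^ n := ⟨_, rfl⟩
  -- near the origin the pull-back is `x ^ N` times a continuous function
  obtain ⟨r, hr, hrC⟩ : ∃ r : ℝ, 0 < r ∧ 2 * C * r < 1 :=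
    ⟨1 / (2 * C + 1), by positivity, by rw [mul_one_div, div_lt_one (by positivity)]; linarith⟩
  have hψc : ∀ x : ℂ, ‖x‖ < r → Summable (fun n => ‖c (n + N)‖ * r ^ n) := fun x hx => by
    obtain ⟨M, hM⟩ : ∃ M : ℝ, ∀ n, ‖c n‖ ≤ M * (2 * C) ^ n := by
      refine ⟨∑ d ∈ range E, ∑ j ∈ range J, |(A d j : ℝ)| * (2 * C) ^ j, fun n => ?_⟩
      rw [hc]
      simp only [coeff_auxSeries, Rat.cast_sum, sum_mul]
      refine (norm_sum_le _ _).trans (sum_le_sum fun d _ => (norm_sum_le _ _).trans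
        (sum_le_sum fun j _ => ?_))
      rw [Rat.cast_mul, norm_mul, Rat.cast_intCast, Complex.norm_intCast, mul_assoc]
      refine mul_le_mul_of_nonneg_left ?_ (abs_nonneg _)
      split_ifs with hdn
      · rw [Complex.norm_ratCast, ← pow_add]
        exact (abs_powCoeff_le hC hab j (n - d)).trans
          (pow_le_pow_right₀ (by linarith) (by omega))
      · rw [Rat.cast_zero, norm_zero]
        positivity
    refine Summable.of_nonneg_of_le (fun n => by positivity) (fun n => ?_)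
      ((summable_geometric_of_lt_one (by positivity) hrC).mul_left (M * (2 * C) ^ N))
    refine (mul_le_mul_of_nonneg_right (hM (n + N)) (by positivity)).trans (le_of_eq ?_)
    rw [pow_add, mul_pow (2 * C) r]
    ring
  have hψcont : ContinuousAt ψ 0 := by
    rw [hψ]
    refine ((continuousOn_tsum (s := Metric.ball (0 : ℂ) r) (u := fun n => ‖c (n + N)‖ * r ^ n)
      (fun n => by fun_prop) (hψc 0 (by simpa using hr)) fun n x hx => ?_).continuousAt
        (Metric.ball_mem_nhds _ hr))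
    rw [norm_mul, norm_pow]
    rw [Metric.mem_ball, dist_zero_right] at hx
    gcongr
  have hψ0 : ψ 0 = c N := by
    simp only [hψ]
    rw [tsum_eq_single 0 fun n hn => by simp [zero_pow hn], pow_zero, mul_one, zero_add]
  have hkey : ∀ᶠ w in 𝓝 (0 : ℂ), G w = g₁ w ^ E * g₂ w ^ J * (u w ^ N * ψ (u w)) := by
    have hucont : ∀ᶠ w in 𝓝 (0 : ℂ), ‖u w‖ < r :=
      hud.continuousAt.norm.eventually_lt_const (by simp [hu0, hr])
    filter_upwards [hucont, hser, (hg₁.differentiableAt hnhds).continuousAt.eventually_ne hg₁0,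
      (hg₂.differentiableAt hnhds).continuousAt.eventually_ne hg₂0] with w hw hs hw₁ hw₂
    have hx : 2 * C * ‖u w‖ < 1 :=
      lt_of_le_of_lt (mul_le_mul_of_nonneg_left hw.le (by positivity)) hrC
    have hs' : HasSum (fun n => (a n : ℂ) * u w ^ n) (h₂ w / g₂ w) := by rw [hu]; exact hs
    have h := hasSum_auxSeries hC hab hx hs' E J A
    have h1 : HasSum (fun n => c (n + N) * u w ^ n * u w ^ N)
        (∑ d ∈ range E, ∑ j ∈ range J, (A d j : ℂ) * u w ^ d * (h₂ w / g₂ w) ^ j) := by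
      have h' := (hasSum_nat_add_iff' N).2 h
      rw [sum_eq_zero (s := range N) fun n hn => by
        rw [hN n (mem_range.1 hn), Rat.cast_zero, zero_mul], sub_zero] at h'
      refine h'.congr_fun fun n => ?_
      simp only [hc, pow_add]
      ring
    have h2 : u w ^ N * ψ (u w) =
        ∑ d ∈ range E, ∑ j ∈ range J, (A d j : ℂ) * u w ^ d * (h₂ w / g₂ w) ^ j := by
      rw [← h1.tsum_eq, hψ, mul_comm, tsum_mul_right]
    rw [h2, hG]
    simp only [mul_sum]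
    refine sum_congr rfl fun d hd => sum_congr rfl fun j hj => ?_
    rw [mem_range] at hd hj
    rw [show g₁ w ^ E = g₁ w ^ d * g₁ w ^ (E - d) by rw [← pow_add, Nat.add_sub_cancel' hd.le],
      show g₂ w ^ J = g₂ w ^ j * g₂ w ^ (J - j) by rw [← pow_add, Nat.add_sub_cancel' hj.le],
      hu, div_pow, div_pow]
    field_simp
  -- divide by `w ^ N`
  obtain ⟨L, hL⟩ : ∃ L : ℂ → ℂ,
      L = fun w => g₁ w ^ E * g₂ w ^ J * (dslope u 0 w ^ N * ψ (u w)) := ⟨_, rfl⟩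
  have hLc : ContinuousAt L 0 := by
    rw [hL]
    exact (((hg₁.differentiableAt hnhds).continuousAt.pow E).mul
      ((hg₂.differentiableAt hnhds).continuousAt.pow J)).mul
      (((continuousAt_dslope_same.2 hud).pow N).mul
        ((ContinuousAt.comp (by rw [hu0]; exact hψcont) hud.continuousAt)))
  obtain ⟨Q, hQ⟩ : ∃ Q : ℂ → ℂ, Q = Function.update (fun w => G w / w ^ N) 0 (L 0) := ⟨_, rfl⟩
  have hQne : ∀ w, w ≠ 0 → Q w = G w / w ^ N := fun w hw => by
    rw [hQ, Function.update_of_ne hw]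
  have hQ0 : Q 0 = L 0 := by rw [hQ, Function.update_self]
  have hQL : Q =ᶠ[𝓝 0] L := by
    filter_upwards [hkey] with w hw
    rcases eq_or_ne w 0 with rfl | hw0
    · exact hQ0
    · rw [hQne w hw0, hw, hL]
      simp only [dslope_of_ne _ hw0, slope_def_field, hu0, sub_zero, div_pow]
      field_simp
  have hQd : DifferentiableOn ℂ Q (Metric.ball 0 R) := by
    refine (Complex.differentiableOn_compl_singleton_and_continuousAt_iff hnhds).1
      ⟨fun w hw => ?_, hLc.congr hQL.symm⟩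
    have hw0 : w ≠ 0 := hw.2
    have h1 : DifferentiableAt ℂ (fun w => G w / w ^ N) w :=
      (hGd.differentiableAt (Metric.isOpen_ball.mem_nhds hw.1)).div
        (differentiableAt_id.pow N) (pow_ne_zero _ hw0)
    refine (h1.congr_of_eventuallyEq ?_).differentiableWithinAt
    filter_upwards [isOpen_ne.mem_nhds hw0] with z hz
    exact hQne z hz
  have hb' : ∀ w ∈ Metric.closedBall (0 : ℂ) R',
      ‖g₁ w‖ ≤ b ∧ ‖h₁ w‖ ≤ b ∧ ‖g₂ w‖ ≤ b ∧ ‖h₂ w‖ ≤ b := fun w hw => by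
    rw [hb]
    exact ⟨(hb₁ w hw).trans ((le_max_left _ _).trans (le_max_left _ _)),
      (hb₂ w hw).trans ((le_max_right _ _).trans (le_max_left _ _)),
      (hb₃ w hw).trans ((le_max_left _ _).trans (le_max_right _ _)),
      (hb₄ w hw).trans ((le_max_right _ _).trans (le_max_right _ _))⟩
  have hb0 : 0 ≤ b := (norm_nonneg _).trans (hb' 0 (Metric.mem_closedBall_self hR'.le)).1
  have hmax : ‖Q 0‖ ≤ (E * J : ℕ) * H * b ^ (E + J) / R' ^ N := by
    refine Complex.norm_le_of_forall_mem_frontier_norm_le (U := Metric.ball (0 : ℂ) R')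
      Metric.isBounded_ball ((hQd.mono ?_).diffContOnCl) (fun w hw => ?_)
      (subset_closure (Metric.mem_ball_self hR'))
    · rw [closure_ball _ hR'.ne']
      exact hsub
    rw [frontier_ball (0 : ℂ) hR'.ne', mem_sphere_zero_iff_norm] at hw
    have hw0 : w ≠ 0 := norm_pos_iff.1 (hw ▸ hR')
    obtain ⟨hw₁, hw₂, hw₃, hw₄⟩ := hb' w (mem_closedBall_zero_iff.2 hw.le)
    rw [hQne w hw0, norm_div, norm_pow, hw, hG]
    refine div_le_div_of_nonneg_right ?_ (by positivity)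
    calc ‖∑ d ∈ range E, ∑ j ∈ range J,
          (A d j : ℂ) * (h₁ w ^ d * g₁ w ^ (E - d) * (h₂ w ^ j * g₂ w ^ (J - j)))‖
        ≤ ∑ d ∈ range E, ∑ j ∈ range J, H * b ^ (E + J) := by
          refine (norm_sum_le _ _).trans (sum_le_sum fun d hd =>
            (norm_sum_le _ _).trans (sum_le_sum fun j hj => ?_))
          rw [mem_range] at hd hj
          rw [norm_mul, Complex.norm_intCast, norm_mul, norm_mul, norm_mul, norm_pow, norm_pow,
            norm_pow, norm_pow]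
          refine mul_le_mul (hA d hd j hj) ?_ (by positivity)
            ((abs_nonneg _).trans (hA d hd j hj))
          rw [show b ^ (E + J) = b ^ d * b ^ (E - d) * (b ^ j * b ^ (J - j)) by
            rw [← pow_add, ← pow_add, ← pow_add]; congr 1; omega]
          gcongr
      _ = (E * J : ℕ) * H * b ^ (E + J) := by
          simp only [sum_const, card_range, nsmul_eq_mul, Nat.cast_mul]
          ring
  have hval : β ^ (E + J) * (|((PowerSeries.coeff N (auxSeries a E J A) : ℚ) : ℝ)| *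
      ‖deriv u 0‖ ^ N) ≤ ‖Q 0‖ := by
    rw [hQ0, hL]
    simp only [dslope_same, hu0, hψ0, hc, norm_mul, norm_pow, Complex.norm_ratCast, pow_add]
    rw [mul_comm (‖deriv u 0‖ ^ N)]
    refine mul_le_mul_of_nonneg_right ?_ (by positivity)
    gcongr
    · exact hβ ▸ (min_le_left _ _).trans (min_le_left _ _)
    · exact hβ ▸ (min_le_left _ _).trans (min_le_right _ _)
  have h := hval.trans hmax
  rw [le_div_iff₀ (pow_pos hR' N)] at h
  refine le_trans ?_ (mul_le_mul_of_nonneg_left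
    (pow_le_pow_left₀ (div_nonneg hb0 hβ0.le) (le_max_left (b / β) 1) _) ?_)
  · rw [div_pow, ← mul_div_assoc, le_div_iff₀ (pow_pos hβ0 _)]
    refine le_trans (le_of_eq ?_) h
    rw [mul_pow]
    ring
  · by_cases hEJ : E * J = 0
    · simp [hEJ]
    · rw [mul_eq_zero, not_or] at hEJ
      exact mul_nonneg (Nat.cast_nonneg _)
        ((abs_nonneg _).trans (hA 0 (by omega) 0 (by omega)))

end FA.AndreAlgebraicity
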