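import Fermat.Agent.AndreAlgebraicity.Powers

/-!
# The finite places

If `x = h₁ / g₁` and `f = h₂ / g₂` after a formal substitution, all four series having Gauss norm
at most `C` on the disc `|t| < 1 / R`, then the first nonzero coefficient `c` of
`∑ A d j X ^ d f ^ j` satisfies `|c| |x'(0)| ^ N ≤ B ^ (E + J) R ^ N`.
-/

set_option autoImplicit false

noncomputable section

namespace FA.AndreAlgebraicity

open Finset

variable {K : Type*} [NormedField K] [IsUltrametricDist K]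

/-- A bound for the Gauss norm on a disc. -/
def GaussLe (f : PowerSeries K) (R C : ℝ) : Prop := ∀ n, ‖PowerSeries.coeff n f‖ ≤ C * R ^ n

omit [IsUltrametricDist K] in
theorem GaussLe.mono {f : PowerSeries K} {R C C' : ℝ} (hR : 0 ≤ R) (h : GaussLe f R C)
    (hC : C ≤ C') : GaussLe f R C' :=
  fun n => (h n).trans (mul_le_mul_of_nonneg_right hC (pow_nonneg hR n))

omit [IsUltrametricDist K] in
theorem GaussLe.nonneg {f : PowerSeries K} {R C : ℝ} (h : GaussLe f R C) : 0 ≤ C := by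
  simpa using (norm_nonneg _).trans (h 0)

theorem GaussLe.mul {f g : PowerSeries K} {R C C' : ℝ} (hR : 0 ≤ R) (hf : GaussLe f R C)
    (hg : GaussLe g R C') : GaussLe (f * g) R (C * C') := fun n => by
  rw [PowerSeries.coeff_mul]
  refine IsUltrametricDist.norm_sum_le_of_forall_le_of_nonneg
    (mul_nonneg (mul_nonneg hf.nonneg hg.nonneg) (pow_nonneg hR n)) fun ij hij => ?_
  rw [HasAntidiagonal.mem_antidiagonal] at hij
  rw [norm_mul, ← hij, pow_add]
  refine (mul_le_mul (hf _) (hg _) (norm_nonneg _)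
    (mul_nonneg hf.nonneg (pow_nonneg hR _))).trans (le_of_eq ?_)
  ring

omit [IsUltrametricDist K] in
theorem gaussLe_one {R : ℝ} (hR : 0 ≤ R) : GaussLe (1 : PowerSeries K) R 1 := fun n => by
  rw [PowerSeries.coeff_one, one_mul]
  split_ifs with hn
  · simp [hn]
  · rw [norm_zero]
    exact pow_nonneg hR n

theorem GaussLe.pow {f : PowerSeries K} {R C : ℝ} (hR : 0 ≤ R) (hf : GaussLe f R C) :
    ∀ d, GaussLe (f ^ d) R (C ^ d)
  | 0 => by rw [pow_zero, pow_zero]; exact gaussLe_one hR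
  | d + 1 => by rw [pow_succ, pow_succ]; exact (hf.pow hR d).mul hR hf

theorem gaussLe_sum {ι : Type*} {s : Finset ι} {f : ι → PowerSeries K} {R C : ℝ} (hR : 0 ≤ R)
    (hC : 0 ≤ C) (h : ∀ i ∈ s, GaussLe (f i) R C) : GaussLe (∑ i ∈ s, f i) R C := fun n => by
  rw [map_sum]
  exact IsUltrametricDist.norm_sum_le_of_forall_le_of_nonneg
    (mul_nonneg hC (pow_nonneg hR n)) fun i hi => h i hi n

theorem GaussLe.intCast_mul {f : PowerSeries K} {R C : ℝ} (z : ℤ) (hf : GaussLe f R C) :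
    GaussLe ((z : PowerSeries K) * f) R C := fun n => by
  rw [← map_intCast (PowerSeries.C (R := K)), PowerSeries.coeff_C_mul, norm_mul]
  exact (mul_le_of_le_one_left (norm_nonneg _) (IsUltrametricDist.norm_intCast_le_one K z)).trans
    (hf n)

/-- **The local bound.** -/
theorem exists_local_bound {φ : ℚ →+* K} {a : ℕ → ℚ} {u g₁ h₁ g₂ h₂ : PowerSeries K} {R C : ℝ}
    (hR : 0 ≤ R) (hg₁ : GaussLe g₁ R C) (hh₁ : GaussLe h₁ R C) (hg₂ : GaussLe g₂ R C)
    (hh₂ : GaussLe h₂ R C) (hg₁0 : PowerSeries.constantCoeff g₁ = 1)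
    (hg₂0 : PowerSeries.constantCoeff g₂ = 1) (hu0 : PowerSeries.constantCoeff u = 0)
    (hu : u * g₁ = h₁)
    (hf : PowerSeries.subst u (PowerSeries.map φ (PowerSeries.mk a)) * g₂ = h₂) :
    ∃ B : ℝ, 1 ≤ B ∧ ∀ (E J : ℕ) (A : ℕ → ℕ → ℤ) (N : ℕ),
      (∀ n < N, PowerSeries.coeff n (auxSeries a E J A) = 0) →
      ‖φ (PowerSeries.coeff N (auxSeries a E J A))‖ * ‖PowerSeries.coeff 1 u‖ ^ N ≤
        B ^ (E + J) * R ^ N := by
  obtain ⟨B, hB⟩ : ∃ B, B = max C 1 := ⟨_, rfl⟩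
  have hB1 : 1 ≤ B := hB ▸ le_max_right _ _
  have hCB : C ≤ B := hB ▸ le_max_left _ _
  refine ⟨B, hB1, fun E J A N hN => ?_⟩
  have hsub : PowerSeries.HasSubst u := PowerSeries.HasSubst.of_constantCoeff_zero' hu0
  obtain ⟨σ, hσ⟩ : ∃ σ : PowerSeries K →ₐ[K] PowerSeries K,
      σ = PowerSeries.substAlgHom hsub := ⟨_, rfl⟩
  have hσe : ∀ p, σ p = PowerSeries.subst u p := fun p => by
    rw [hσ, PowerSeries.coe_substAlgHom hsub]
  obtain ⟨F, hF⟩ : ∃ F, F = PowerSeries.map φ (auxSeries a E J A) := ⟨_, rfl⟩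
  obtain ⟨W, hW⟩ : PowerSeries.X ^ N ∣ F :=
    PowerSeries.X_pow_dvd_iff.2 fun n hn => by
      rw [hF, PowerSeries.coeff_map, hN n hn, map_zero]
  have hWc : PowerSeries.constantCoeff W = φ (PowerSeries.coeff N (auxSeries a E J A)) := by
    rw [← PowerSeries.coeff_map, ← hF, hW, ← PowerSeries.coeff_zero_eq_constantCoeff_apply]
    simpa using (PowerSeries.coeff_X_pow_mul W N 0).symm
  obtain ⟨G, hG⟩ : ∃ G : PowerSeries K, G = ∑ d ∈ range E, ∑ j ∈ range J,
      (A d j : PowerSeries K) * (h₁ ^ d * g₁ ^ (E - d) * (h₂ ^ j * g₂ ^ (J - j))) := ⟨_, rfl⟩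
  have hGb : GaussLe G R (B ^ (E + J)) := by
    rw [hG]
    refine gaussLe_sum hR (by positivity) fun d hd => gaussLe_sum hR (by positivity) fun j hj => ?_
    rw [mem_range] at hd hj
    refine GaussLe.intCast_mul _ ((((hh₁.pow hR d).mul hR (hg₁.pow hR _)).mul hR
      ((hh₂.pow hR j).mul hR (hg₂.pow hR _))).mono hR (le_of_le_of_eq ?_ rfl))
    have hC0 := hg₁.nonneg
    rw [← pow_add, ← pow_add, ← pow_add, show d + (E - d) + (j + (J - j)) = E + J by omega]
    exact pow_le_pow_left₀ hC0 hCB _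
  have hσX : σ PowerSeries.X = u := by rw [hσe, PowerSeries.subst_X hsub]
  have hσF : σ F = ∑ d ∈ range E, ∑ j ∈ range J,
      (A d j : PowerSeries K) * (u ^ d *
        PowerSeries.subst u (PowerSeries.map φ (PowerSeries.mk a)) ^ j) := by
    simp only [hF, auxSeries, map_sum, map_mul, map_pow, map_intCast, PowerSeries.map_X, hσX,
      mul_assoc]
    simp only [hσe]
  have hGF : g₁ ^ E * g₂ ^ J * σ F = G := by
    rw [hσF, hG, mul_sum]
    refine sum_congr rfl fun d hd => ?_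
    rw [mul_sum]
    refine sum_congr rfl fun j hj => ?_
    rw [mem_range] at hd hj
    rw [← hu, ← hf, mul_pow, mul_pow,
      show g₁ ^ E = g₁ ^ d * g₁ ^ (E - d) by rw [← pow_add, Nat.add_sub_cancel' hd.le],
      show g₂ ^ J = g₂ ^ j * g₂ ^ (J - j) by rw [← pow_add, Nat.add_sub_cancel' hj.le]]
    ring
  obtain ⟨u', hu'⟩ : PowerSeries.X ∣ u := PowerSeries.X_dvd_iff.2 hu0
  have hu1 : PowerSeries.constantCoeff u' = PowerSeries.coeff 1 u := by
    rw [hu', ← PowerSeries.coeff_zero_eq_constantCoeff_apply]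
    exact (PowerSeries.coeff_succ_X_mul 0 u').symm
  obtain ⟨W', hW'⟩ : PowerSeries.X ∣ W - PowerSeries.C (PowerSeries.constantCoeff W) :=
    PowerSeries.X_dvd_iff.2 (by simp)
  have hσW : PowerSeries.constantCoeff (σ W) = PowerSeries.constantCoeff W := by
    conv_lhs => rw [← sub_add_cancel W (PowerSeries.C (PowerSeries.constantCoeff W)), hW']
    rw [map_add, map_mul, hσX, map_add, map_mul, hu0, zero_mul, zero_add,
      show PowerSeries.C (PowerSeries.constantCoeff W) = algebraMap K (PowerSeries K)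
        (PowerSeries.constantCoeff W) from rfl, AlgHom.commutes]
    exact PowerSeries.constantCoeff_C _
  have hcoef : PowerSeries.coeff N G =
      PowerSeries.constantCoeff W * PowerSeries.coeff 1 u ^ N := by
    rw [← hGF, hW, map_mul σ, map_pow σ, hσX, hu', mul_pow,
      show g₁ ^ E * g₂ ^ J * (PowerSeries.X ^ N * u' ^ N * σ W) =
        PowerSeries.X ^ N * (g₁ ^ E * g₂ ^ J * u' ^ N * σ W) by ring]
    rw [← hu']
    have h0 := PowerSeries.coeff_X_pow_mul (g₁ ^ E * g₂ ^ J * u' ^ N * σ W) N 0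
    rw [zero_add] at h0
    rw [h0, PowerSeries.coeff_zero_eq_constantCoeff_apply]
    simp only [map_mul, map_pow, hg₁0, hg₂0, one_pow, one_mul, hσW, hu1, mul_comm]
  rw [← hWc, ← norm_pow, ← norm_mul, ← hcoef]
  exact hGb N

end FA.AndreAlgebraicity
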