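import Fermat.Agent.Bertrandias.Main
import Fermat.Agent.AndreAlgebraicity.Infinite
import Fermat.Agent.AndreAlgebraicity.Local
import Mathlib.NumberTheory.SiegelsLemma

/-!
# The algebraicity criterion of D. and G. Chudnovsky and of André

If `x` and `f = ∑ a n x ^ n` are simultaneously uniformised at infinity by meromorphic functions on
`|w| < R` and, at the primes of a finite set outside which `f` is integral, by formal series on
discs, with product of the normalised radii above one, then `f` is algebraic over `ℚ(x)`: a Siegel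
auxiliary function `∑ A d j x ^ d f ^ j` vanishing to high order must vanish identically, since its
first coefficient would violate the product formula.
-/

set_option autoImplicit false

noncomputable section

attribute [local instance] Matrix.seminormedAddCommGroup

namespace FA.AndreAlgebraicity

open Finset Filter
open scoped Topology

/-- A vanishing auxiliary series is an algebraic relation. -/
theorem isAlgebraic_of_auxSeries_eq_zero {a : ℕ → ℚ} {E J : ℕ} {A : ℕ → ℕ → ℤ}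
    (hA : ∃ d < E, ∃ j < J, A d j ≠ 0) (h : auxSeries a E J A = 0) :
    IsAlgebraic (Polynomial ℚ) (PowerSeries.mk a) := by
  classical
  obtain ⟨P, hP⟩ : ∃ P : Polynomial (Polynomial ℚ), P = ∑ j ∈ range J, Polynomial.C
      (∑ d ∈ range E, Polynomial.C (A d j : ℚ) * Polynomial.X ^ d) * Polynomial.X ^ j := ⟨_, rfl⟩
  refine ⟨P, fun h0 => ?_, ?_⟩
  · obtain ⟨d, hd, j, hj, hne⟩ := hA
    have h1 := congrArg (fun p : Polynomial (Polynomial ℚ) => (p.coeff j).coeff d) h0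
    simp only [hP, Polynomial.finsetSum_coeff, Polynomial.coeff_C_mul_X_pow, Polynomial.coeff_zero,
      Finset.sum_ite_eq, mem_range, hj, hd, if_true] at h1
    exact hne (Int.cast_eq_zero.1 h1)
  · rw [← h, hP, auxSeries, Finset.sum_comm, map_sum]
    refine sum_congr rfl fun j _ => ?_
    rw [map_mul, map_pow, Polynomial.aeval_X, Polynomial.aeval_C, map_sum, sum_mul]
    refine sum_congr rfl fun d _ => ?_
    rw [map_intCast (Polynomial.C (R := ℚ)), map_mul, map_intCast, map_pow]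
    simp [PowerSeries.algebraMap_apply']

/-- The powers of a series integral at `l` are integral at `l`. -/
theorem padicNorm_coeff_auxSeries_le {a : ℕ → ℚ} (l : Nat.Primes)
    (h : ∀ n, padicNorm l (a n) ≤ 1) (E J : ℕ) (A : ℕ → ℕ → ℤ) (n : ℕ) :
    padicNorm l (PowerSeries.coeff n (auxSeries a E J A)) ≤ 1 := by
  have hp : ∀ j n, padicNorm l (powCoeff a j n) ≤ 1 := fun j => by
    induction j with
    | zero =>
      intro n
      rw [powCoeff_zero]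
      split_ifs <;> simp
    | succ j ih =>
      intro n
      rw [powCoeff_succ]
      refine padicNorm.sum_le' (fun i _ => ?_) zero_le_one
      rw [padicNorm.mul]
      exact mul_le_one₀ (ih i) (padicNorm.nonneg _) (h _)
  rw [coeff_auxSeries]
  refine padicNorm.sum_le' (fun d _ => padicNorm.sum_le' (fun j _ => ?_) zero_le_one) zero_le_one
  rw [padicNorm.mul]
  refine mul_le_one₀ (padicNorm.of_int _) (padicNorm.nonneg _) ?_
  split_ifs
  · exact hp _ _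
  · simp

/-- **Siegel's lemma** for the auxiliary series. -/
theorem exists_auxiliary {a : ℕ → ℚ} {M : ℕ} (hM : 0 < M)
    (hden : ∀ j n, ∃ z : ℤ, powCoeff a j n * (M : ℚ) ^ (n + j) = z) {C : ℝ} (hC : 1 ≤ C)
    (hab : ∀ n, |(a n : ℝ)| ≤ C ^ (n + 1)) {E J T k : ℕ} (hk : 1 ≤ k) (hT : 0 < T)
    (hEJ : E * J = (k + 1) * T) :
    ∃ (A : ℕ → ℕ → ℤ) (H : ℝ), (∃ d < E, ∃ j < J, A d j ≠ 0) ∧ 0 ≤ H ∧
      (∀ d < E, ∀ j < J, |(A d j : ℝ)| ≤ H) ∧
      H ^ k ≤ (E * J : ℕ) * (2 * C * M) ^ (T + J) ∧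
      ∀ n < T, PowerSeries.coeff n (auxSeries a E J A) = 0 := by
  classical
  have hM1 : (1 : ℝ) ≤ M := Nat.one_le_cast.2 hM
  have hΦ : 1 ≤ 2 * C * M := one_le_mul_of_one_le_of_one_le (by linarith) hM1
  choose z hz using hden
  obtain ⟨Z, hZ⟩ : ∃ Z : Matrix (Fin T) (Fin E × Fin J) ℤ,
      Z = Matrix.of fun (n : Fin T) (dj : Fin E × Fin J) => if (dj.1 : ℕ) ≤ n then
        z dj.2 ((n : ℕ) - dj.1) * (M : ℤ) ^ (T + J - ((n : ℕ) - dj.1 + dj.2)) else 0 := ⟨_, rfl⟩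
  have hZq : ∀ (n : Fin T) (dj : Fin E × Fin J), ((Z n dj : ℤ) : ℚ) =
      (if (dj.1 : ℕ) ≤ n then powCoeff a dj.2 ((n : ℕ) - dj.1) else 0) * (M : ℚ) ^ (T + J) :=
    fun n dj => by
      rw [hZ, Matrix.of_apply]
      split_ifs with hle
      · have := n.isLt
        have := dj.2.isLt
        rw [Int.cast_mul, Int.cast_pow, Int.cast_natCast, ← hz, mul_assoc, ← pow_add,
          Nat.add_sub_cancel' (by omega)]
      · simp
  have hnorm : max 1 ‖Z‖ ≤ (2 * C * M) ^ (T + J) := by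
    refine max_le (one_le_pow₀ hΦ) ((Matrix.norm_le_iff (by positivity)).2 fun n dj => ?_)
    have e : ((Z n dj : ℤ) : ℝ) = ((if (dj.1 : ℕ) ≤ n then powCoeff a dj.2 ((n : ℕ) - dj.1)
        else 0 : ℚ) : ℝ) * (M : ℝ) ^ (T + J) := by
      have h := congrArg (fun q : ℚ => (q : ℝ)) (hZq n dj)
      simp only [Rat.cast_intCast, Rat.cast_mul, Rat.cast_pow, Rat.cast_natCast] at h
      exact h
    rw [Int.norm_eq_abs, e, abs_mul, abs_of_nonneg (by positivity : (0 : ℝ) ≤ (M : ℝ) ^ (T + J)),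
      mul_pow (2 * C) (M : ℝ)]
    refine mul_le_mul_of_nonneg_right ?_ (by positivity)
    split_ifs with hle
    · have := n.isLt
      have := dj.2.isLt
      exact (abs_powCoeff_le (by linarith) hab _ _).trans
        (pow_le_pow_right₀ (by linarith) (by omega))
    · rw [Rat.cast_zero, abs_zero]
      positivity
  obtain ⟨t, ht0, htA, htn⟩ := Int.Matrix.exists_ne_zero_int_vec_norm_le Z
    (by simp only [Fintype.card_fin, Fintype.card_prod, hEJ]; nlinarith)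
    (by simpa using hT)
  obtain ⟨A, hA⟩ : ∃ A : ℕ → ℕ → ℤ, A = fun d j =>
      if h : d < E ∧ j < J then t (⟨d, h.1⟩, ⟨j, h.2⟩) else 0 := ⟨_, rfl⟩
  have hAt : ∀ (d : Fin E) (j : Fin J), A d j = t (d, j) := fun d j => by
    simp [hA]
  refine ⟨A, ‖t‖, ?_, norm_nonneg _, fun d hd j hj => ?_, ?_, fun n hn => ?_⟩
  · obtain ⟨⟨d, j⟩, hne⟩ : ∃ x, t x ≠ 0 := by
      by_contra! h
      exact ht0 (funext h)
    exact ⟨d, d.isLt, j, j.isLt, by rw [hAt]; exact hne⟩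
  · rw [show A d j = t (⟨d, hd⟩, ⟨j, hj⟩) from hAt ⟨d, hd⟩ ⟨j, hj⟩, ← Int.norm_eq_abs]
    exact norm_le_pi_norm t _
  · simp only [Fintype.card_fin, Fintype.card_prod, hEJ, Nat.cast_mul, Nat.cast_add,
      Nat.cast_one] at htn
    have he : (T : ℝ) / (((k : ℝ) + 1) * T - T) = (k : ℝ)⁻¹ := by
      rw [show ((k : ℝ) + 1) * T - T = T * k by ring,
        div_mul_cancel_left₀ (Nat.cast_ne_zero.2 hT.ne')]
    rw [he] at htn
    refine (pow_le_pow_left₀ (norm_nonneg _) htn k).trans ?_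
    rw [Real.rpow_inv_natCast_pow (by positivity) (by omega), hEJ, Nat.cast_mul, Nat.cast_add,
      Nat.cast_one]
    exact mul_le_mul_of_nonneg_left hnorm (by positivity)
  · have h := congrFun htA ⟨n, hn⟩
    simp only [Matrix.mulVec, dotProduct, Pi.zero_apply, Fintype.sum_prod_type] at h
    have h' := congrArg (fun x : ℤ => (x : ℚ)) h
    simp only [Int.cast_sum, Int.cast_mul, hZq, Int.cast_zero, ← hAt] at h'
    refine mul_right_cancel₀ (pow_ne_zero (T + J)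
      (Nat.cast_ne_zero.2 hM.ne' : (M : ℚ) ≠ 0)) ?_
    simp only [zero_mul, coeff_auxSeries, sum_range, sum_mul]
    exact (sum_congr rfl fun d _ => sum_congr rfl fun j _ => by ring).trans h'

variable {a : ℕ → ℚ} {S : Finset Nat.Primes}

/-- **The criterion.** -/
theorem isAlgebraic_of_uniformisation {Rinf : ℝ} {g₁ h₁ g₂ h₂ : ℂ → ℂ}
    (hg₁ : DifferentiableOn ℂ g₁ (Metric.ball 0 Rinf))
    (hh₁ : DifferentiableOn ℂ h₁ (Metric.ball 0 Rinf))
    (hg₂ : DifferentiableOn ℂ g₂ (Metric.ball 0 Rinf))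
    (hh₂ : DifferentiableOn ℂ h₂ (Metric.ball 0 Rinf))
    (hg₁0 : g₁ 0 ≠ 0) (hg₂0 : g₂ 0 ≠ 0) (hh₁0 : h₁ 0 = 0)
    (hser : ∀ᶠ w in 𝓝 (0 : ℂ), HasSum (fun n => (a n : ℂ) * (h₁ w / g₁ w) ^ n) (h₂ w / g₂ w))
    (hint : ∀ l : Nat.Primes, l ∉ S → ∀ n, padicNorm l (a n) ≤ 1)
    (hbd : ∃ C : ℚ, ∀ l ∈ S, ∀ n, padicNorm l (a n) ≤ C ^ (n + 1))
    {R : Nat.Primes → ℝ} {u : ∀ l : Nat.Primes, PowerSeries ℚ_[(l : ℕ)]}
    (hR : ∀ l ∈ S, 0 < R l) (hu1 : ∀ l ∈ S, PowerSeries.coeff 1 (u l) ≠ 0)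
    (hloc : ∀ l ∈ S, ∃ (C : ℝ) (g₁ h₁ g₂ h₂ : PowerSeries ℚ_[(l : ℕ)]),
      GaussLe g₁ (R l) C ∧ GaussLe h₁ (R l) C ∧ GaussLe g₂ (R l) C ∧ GaussLe h₂ (R l) C ∧
      PowerSeries.constantCoeff g₁ = 1 ∧ PowerSeries.constantCoeff g₂ = 1 ∧
      PowerSeries.constantCoeff (u l) = 0 ∧ u l * g₁ = h₁ ∧
      PowerSeries.subst (u l)
        (PowerSeries.map (algebraMap ℚ ℚ_[(l : ℕ)]) (PowerSeries.mk a)) * g₂ = h₂)
    (hprod : ∏ l ∈ S, R l / ‖PowerSeries.coeff 1 (u l)‖ <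
      Rinf * ‖deriv (fun w => h₁ w / g₁ w) 0‖) :
    IsAlgebraic (Polynomial ℚ) (PowerSeries.mk a) := by
  classical
  by_contra hnot
  obtain ⟨σ, hσ⟩ : ∃ σ : ℝ, σ = ‖deriv (fun w => h₁ w / g₁ w) 0‖ := ⟨_, rfl⟩
  obtain ⟨P, hP⟩ : ∃ P : ℝ, P = ∏ l ∈ S, R l / ‖PowerSeries.coeff 1 (u l)‖ := ⟨_, rfl⟩
  rw [← hσ, ← hP] at hprod
  have hP0 : 0 < P := hP ▸ prod_pos fun l hl => div_pos (hR l hl) (norm_pos_iff.2 (hu1 l hl))
  have hσ0 : 0 < σ := lt_of_le_of_ne (hσ ▸ norm_nonneg _) fun e => by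
    rw [← e, mul_zero] at hprod
    linarith
  obtain ⟨R', hR'1, hR'2⟩ := exists_between ((div_lt_iff₀ hσ0).2 hprod)
  have hR'0 : 0 < R' := (div_pos hP0 hσ0).trans hR'1
  obtain ⟨η, hη⟩ : ∃ η : ℝ, η = P / (σ * R') := ⟨_, rfl⟩
  have hη0 : 0 < η := hη ▸ div_pos hP0 (mul_pos hσ0 hR'0)
  have hη1 : η < 1 := by
    rw [hη, div_lt_one (mul_pos hσ0 hR'0), mul_comm]
    rwa [div_lt_iff₀ hσ0] at hR'1
  -- the bounds at the places
  have hR0 : 0 < Rinf := hR'0.trans hR'2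
  have hnhds : Metric.ball (0 : ℂ) Rinf ∈ 𝓝 (0 : ℂ) := Metric.ball_mem_nhds _ hR0
  obtain ⟨C₀, hC₀, hab₀⟩ := exists_abs_bound hR0 (u := fun w => h₁ w / g₁ w)
    ((hh₁.differentiableAt hnhds).div (hg₁.differentiableAt hnhds) hg₁0) (by simp [hh₁0])
    (norm_pos_iff.1 (hσ ▸ hσ0)) hser
  obtain ⟨C, hC, hab⟩ : ∃ C : ℝ, 1 ≤ C ∧ ∀ n, |(a n : ℝ)| ≤ C ^ (n + 1) :=
    ⟨max C₀ 1, le_max_right _ _, fun n =>
      (hab₀ n).trans (pow_le_pow_left₀ hC₀ (le_max_left _ _) _)⟩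
  obtain ⟨Binf, hBinf1, hBinf⟩ := exists_infinite_bound (by linarith) hab hg₁ hh₁ hg₂ hh₂ hg₁0
    hg₂0 hh₁0 hser hR'0 hR'2
  have hloc' : ∀ l : Nat.Primes, ∃ B : ℝ, 1 ≤ B ∧ (l ∈ S → ∀ (E J : ℕ) (A : ℕ → ℕ → ℤ) (N : ℕ),
      (∀ n < N, PowerSeries.coeff n (auxSeries a E J A) = 0) →
      ((padicNorm l (PowerSeries.coeff N (auxSeries a E J A)) : ℚ) : ℝ) ≤
        B ^ (E + J) * (R l / ‖PowerSeries.coeff 1 (u l)‖) ^ N) := fun l => by
    by_cases hl : l ∈ S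
    · obtain ⟨C', q₁, k₁, q₂, k₂, hq₁, hk₁, hq₂, hk₂, hq₁0, hq₂0, hu0, hu, hf⟩ := hloc l hl
      obtain ⟨B, hB1, hB⟩ := exists_local_bound (hR l hl).le hq₁ hk₁ hq₂ hk₂ hq₁0 hq₂0 hu0 hu hf
      refine ⟨B, hB1, fun _ E J A N hN => ?_⟩
      have h := hB E J A N hN
      rw [eq_ratCast, Padic.eq_padicNorm] at h
      rw [div_pow, ← mul_div_assoc, le_div_iff₀ (pow_pos (norm_pos_iff.2 (hu1 l hl)) N)]
      exact h
    · exact ⟨1, le_rfl, fun h => absurd h hl⟩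
  choose Bl hBl1 hBl using hloc'
  obtain ⟨Cq, hCq⟩ := hbd
  obtain ⟨M, hM, hden⟩ := exists_den hint hCq
  -- the parameters
  obtain ⟨Φ, hΦ⟩ : ∃ Φ : ℝ, Φ = 2 * C * M := ⟨_, rfl⟩
  have hΦ1 : 1 ≤ Φ :=
    hΦ ▸ one_le_mul_of_one_le_of_one_le (by linarith) (Nat.one_le_cast.2 hM)
  obtain ⟨B, hB⟩ : ∃ B : ℝ, B = Binf * ∏ l ∈ S, Bl l := ⟨_, rfl⟩
  have hB1 : 1 ≤ B :=
    hB ▸ one_le_mul_of_one_le_of_one_le hBinf1 (one_le_prod fun l _ => hBl1 l)
  obtain ⟨k₀, hk₀⟩ := exists_pow_lt_of_lt_one (show 0 < 1 / (2 * Φ) by positivity) hη1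
  obtain ⟨k, hkdef⟩ : ∃ k, k = k₀ + 1 := ⟨_, rfl⟩
  have hk : Φ * η ^ k ≤ 1 / 2 := by
    have h1 : η ^ k ≤ η ^ k₀ := pow_le_pow_of_le_one hη0.le hη1.le (by omega)
    refine (mul_le_mul_of_nonneg_left (h1.trans hk₀.le) (by linarith)).trans (le_of_eq ?_)
    field_simp
  obtain ⟨p₀, hp₀⟩ := exists_pow_lt_of_lt_one (show 0 < 1 / B ^ k by positivity)
    (show (1 / 2 : ℝ) < 1 by norm_num)
  obtain ⟨p, hpdef⟩ : ∃ p, p = p₀ + 1 := ⟨_, rfl⟩
  obtain ⟨q, hq⟩ : ∃ q : ℝ, q = (Φ * η ^ k) ^ p * B ^ k := ⟨_, rfl⟩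
  have hq0 : 0 < q := hq ▸ by positivity
  have hq1 : q < 1 := by
    rw [hq, ← lt_div_iff₀ (by positivity)]
    refine lt_of_le_of_lt ((pow_le_pow_left₀ (by positivity) hk p).trans
      (pow_le_pow_of_le_one (by norm_num) (by norm_num) (by omega))) hp₀
  obtain ⟨J, hJ⟩ : ∃ J, J = (k + 1) * p := ⟨_, rfl⟩
  have hlim : Tendsto (fun E : ℕ => (J : ℝ) ^ (k + 1) * Φ ^ J * B ^ (k * J) *
      ((E : ℝ) ^ (k + 1) * q ^ E)) atTop (𝓝 0) := by
    simpa using (tendsto_pow_const_mul_const_pow_of_abs_lt_one (k + 1)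
      (show |q| < 1 by rwa [abs_of_pos hq0])).const_mul ((J : ℝ) ^ (k + 1) * Φ ^ J * B ^ (k * J))
  obtain ⟨E, hElt, hE0⟩ :=
    ((hlim.eventually_lt_const one_pos).and (eventually_gt_atTop 0)).exists
  obtain ⟨T, hT⟩ : ∃ T, T = p * E := ⟨_, rfl⟩
  obtain ⟨A, H, hAne, hH0, hAH, hHk, hvan⟩ := exists_auxiliary hM hden hC hab (E := E) (J := J)
    (T := T) (k := k) (by omega) (hT ▸ Nat.mul_pos (by omega) hE0) (by rw [hJ, hT]; ring)
  -- the first nonzero coefficient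
  have hF : auxSeries a E J A ≠ 0 := fun h => hnot (isAlgebraic_of_auxSeries_eq_zero hAne h)
  have hex : ∃ N, PowerSeries.coeff N (auxSeries a E J A) ≠ 0 := by
    by_contra! h
    exact hF (PowerSeries.ext fun n => by simp [h n])
  obtain ⟨N, hcN, hN⟩ : ∃ N, PowerSeries.coeff N (auxSeries a E J A) ≠ 0 ∧
      ∀ n < N, PowerSeries.coeff n (auxSeries a E J A) = 0 :=
    ⟨Nat.find hex, Nat.find_spec hex, fun n hn => not_not.1 (Nat.find_min hex hn)⟩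
  have hTN : T ≤ N := by
    by_contra hlt
    exact hcN (hvan N (not_le.1 hlt))
  have h1 := Bertrandias.one_le_abs_mul_prod hcN fun l hl =>
    padicNorm_coeff_auxSeries_le l (hint l hl) E J A N
  have h2 : (1 : ℝ) ≤ |((PowerSeries.coeff N (auxSeries a E J A) : ℚ) : ℝ)| *
      ∏ l ∈ S, ((padicNorm l (PowerSeries.coeff N (auxSeries a E J A)) : ℚ) : ℝ) := by
    exact_mod_cast h1
  have hinf := hBinf E J A H hAH N hN
  rw [← hσ, ← le_div_iff₀ (pow_pos (mul_pos hσ0 hR'0) N)] at hinf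
  have hfin : ∏ l ∈ S, ((padicNorm l (PowerSeries.coeff N (auxSeries a E J A)) : ℚ) : ℝ) ≤
      (∏ l ∈ S, Bl l) ^ (E + J) * P ^ N := by
    rw [hP, ← prod_pow, ← prod_pow, ← prod_mul_distrib]
    exact prod_le_prod (fun l _ => Rat.cast_nonneg.2 (padicNorm.nonneg _))
      fun l hl => hBl l hl E J A N hN
  have h3 : 1 ≤ (E * J : ℕ) * H * (B ^ (E + J) * η ^ T) := by
    refine h2.trans ((mul_le_mul hinf hfin (prod_nonneg fun l _ => Rat.cast_nonneg.2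
      (padicNorm.nonneg _)) (by positivity)).trans ?_)
    refine le_trans (le_of_eq ?_) (mul_le_mul_of_nonneg_left (mul_le_mul_of_nonneg_left
      (pow_le_pow_of_le_one hη0.le hη1.le hTN) (by positivity)) (by positivity))
    rw [hη, hB, mul_pow Binf, div_pow P]
    field_simp
  have h4 : 1 ≤ (((E * J : ℕ) : ℝ) * H * (B ^ (E + J) * η ^ T)) ^ k := one_le_pow₀ h3
  have h5 : (((E * J : ℕ) : ℝ) * H * (B ^ (E + J) * η ^ T)) ^ k ≤
      (J : ℝ) ^ (k + 1) * Φ ^ J * B ^ (k * J) * ((E : ℝ) ^ (k + 1) * q ^ E) := by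
    rw [mul_pow, mul_pow]
    refine (mul_le_mul_of_nonneg_right (mul_le_mul_of_nonneg_left hHk (by positivity))
      (by positivity)).trans (le_of_eq ?_)
    rw [← hΦ, Nat.cast_mul, hq, hT]
    simp only [mul_pow, ← pow_mul, pow_add, pow_succ]
    ring
  linarith [h4.trans h5]

end FA.AndreAlgebraicity
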