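import Fermat.Agent.Bertrandias.Ultrametric
import Mathlib

/-!
# The coefficients of the powers of a power series

Geometric bounds, denominators and convergence of the powers of a series with rational
coefficients, and of the auxiliary combinations `∑ A d j X ^ d f ^ j`.
-/

set_option autoImplicit false

noncomputable section

namespace FA.AndreAlgebraicity

open Finset

/-- The coefficients of `f ^ j`. -/
def powCoeff (a : ℕ → ℚ) (j n : ℕ) : ℚ := PowerSeries.coeff n (PowerSeries.mk a ^ j)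

theorem powCoeff_zero (a : ℕ → ℚ) (n : ℕ) : powCoeff a 0 n = if n = 0 then 1 else 0 := by
  rw [powCoeff, pow_zero, PowerSeries.coeff_one]

theorem powCoeff_succ (a : ℕ → ℚ) (j n : ℕ) :
    powCoeff a (j + 1) n = ∑ i ∈ range (n + 1), powCoeff a j i * a (n - i) := by
  rw [powCoeff, pow_succ, PowerSeries.coeff_mul, Nat.sum_antidiagonal_eq_sum_range_succ_mk]
  simp only [PowerSeries.coeff_mk]
  rfl

/-- A geometric bound for the coefficients gives one for all powers. -/
theorem abs_powCoeff_le {a : ℕ → ℚ} {C : ℝ} (hC : 0 ≤ C) (h : ∀ n, |(a n : ℝ)| ≤ C ^ (n + 1))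
    (j : ℕ) : ∀ n, |(powCoeff a j n : ℝ)| ≤ (2 * C) ^ (n + j) := by
  induction j with
  | zero =>
    intro n
    rw [powCoeff_zero]
    split_ifs with hn
    · simp [hn]
    · rw [Rat.cast_zero, abs_zero]
      positivity
  | succ j ih =>
    intro n
    rw [powCoeff_succ, Rat.cast_sum]
    have hgeom : ∀ N : ℕ, ∑ i ∈ range N, (2 : ℝ) ^ (i + j) ≤ 2 ^ (N + j) := fun N => by
      induction N with
      | zero => simp only [range_zero, sum_empty]; positivity
      | succ N ihN =>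
        rw [sum_range_succ, show N + 1 + j = N + j + 1 by omega, pow_succ]
        linarith
    calc |∑ i ∈ range (n + 1), ((powCoeff a j i * a (n - i) : ℚ) : ℝ)|
        ≤ ∑ i ∈ range (n + 1), |((powCoeff a j i * a (n - i) : ℚ) : ℝ)| := abs_sum_le_sum_abs _ _
      _ ≤ ∑ i ∈ range (n + 1), (2 : ℝ) ^ (i + j) * C ^ (n + (j + 1)) := by
          refine sum_le_sum fun i hi => ?_
          rw [mem_range] at hi
          rw [Rat.cast_mul, abs_mul]
          refine (mul_le_mul (ih i) (h (n - i)) (abs_nonneg _) (by positivity)).trans (le_of_eq ?_)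
          rw [mul_pow, mul_assoc, ← pow_add, show i + j + (n - i + 1) = n + (j + 1) by omega]
      _ ≤ (2 * C) ^ (n + (j + 1)) := by
          rw [← sum_mul, mul_pow, show n + (j + 1) = n + 1 + j by omega]
          exact mul_le_mul_of_nonneg_right (hgeom (n + 1)) (by positivity)

/-- A rational number integral at every prime is an integer. -/
theorem exists_int_eq {x : ℚ} (h : ∀ l : Nat.Primes, padicNorm l x ≤ 1) : ∃ z : ℤ, x = z := by
  refine ⟨x.num, ?_⟩
  have hden : x.den = 1 := by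
    by_contra hne
    obtain ⟨l, hl, hdvd⟩ := Nat.exists_prime_and_dvd hne
    have : Fact l.Prime := ⟨hl⟩
    have h1 := h ⟨l, hl⟩
    have h2 : padicNorm l (x.den : ℚ) < 1 := (padicNorm.nat_lt_one_iff _).2 hdvd
    have h3 : padicNorm l (x.num : ℚ) = 1 := (padicNorm.int_eq_one_iff _).2 fun hd =>
      hl.not_dvd_one (by
        have := Nat.dvd_gcd (Int.natCast_dvd.1 hd) hdvd
        rwa [Nat.Coprime.gcd_eq_one x.reduced] at this)
    rw [← Rat.num_div_den x, padicNorm.div, h3, one_div] at h1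
    have h4 : 0 < padicNorm l (x.den : ℚ) :=
      lt_of_le_of_ne (padicNorm.nonneg _) (padicNorm.nonzero (by simp)).symm
    exact absurd h1 (not_le.2 ((one_lt_inv₀ h4).2 h2))
  rw [Rat.coe_int_num_of_den_eq_one hden]

/-- A common denominator growing geometrically. -/
theorem exists_den {a : ℕ → ℚ} {S : Finset Nat.Primes}
    (hint : ∀ l : Nat.Primes, l ∉ S → ∀ n, padicNorm l (a n) ≤ 1) {C : ℚ}
    (hbd : ∀ l ∈ S, ∀ n, padicNorm l (a n) ≤ C ^ (n + 1)) :
    ∃ M : ℕ, 0 < M ∧ ∀ j n, ∃ z : ℤ, powCoeff a j n * (M : ℚ) ^ (n + j) = z := by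
  obtain ⟨c, hc⟩ := exists_nat_ge C
  obtain ⟨M, hM⟩ : ∃ M : ℕ, M = ∏ l ∈ S, (l : ℕ) ^ c := ⟨_, rfl⟩
  have hM0 : 0 < M := hM ▸ prod_pos fun l _ => pow_pos l.2.pos _
  refine ⟨M, hM0, ?_⟩
  have h1 : ∀ n, ∃ z : ℤ, a n * (M : ℚ) ^ (n + 1) = z := fun n => by
    refine exists_int_eq fun l => ?_
    have : Fact (l : ℕ).Prime := ⟨l.2⟩
    rw [padicNorm.mul, ← Nat.cast_pow]
    by_cases hl : l ∈ S
    · have hdvd : (((l : ℕ) ^ (c * (n + 1)) : ℕ) : ℤ) ∣ ((M ^ (n + 1) : ℕ) : ℤ) := by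
        rw [Int.natCast_dvd_natCast, pow_mul, hM]
        exact pow_dvd_pow_of_dvd (dvd_prod_of_mem (fun q : Nat.Primes => (q : ℕ) ^ c) hl) _
      have h2 : padicNorm l ((M ^ (n + 1) : ℕ) : ℚ) ≤
          ((l : ℕ) : ℚ) ^ (-(((c * (n + 1) : ℕ) : ℤ))) := by
        exact_mod_cast padicNorm.dvd_iff_norm_le.1 hdvd
      refine (mul_le_mul (hbd l hl n) h2 (padicNorm.nonneg _)
        ((padicNorm.nonneg _).trans (hbd l hl n))).trans ?_
      rw [zpow_neg, zpow_natCast, pow_mul, ← div_eq_mul_inv,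
        div_le_one (pow_pos (pow_pos (Nat.cast_pos.2 l.2.pos) _) _)]
      have hl2 : C ≤ ((l : ℕ) : ℚ) ^ c := by
        refine hc.trans ?_
        exact_mod_cast (Nat.lt_two_pow_self.le).trans (Nat.pow_le_pow_left l.2.two_le c)
      refine pow_le_pow_left₀ ?_ hl2 _
      simpa using (padicNorm.nonneg _).trans (hbd l hl 0)
    · exact mul_le_one₀ (hint l hl n) (padicNorm.nonneg _) (padicNorm.of_nat _)
  intro j
  induction j with
  | zero =>
    intro n
    rw [powCoeff_zero]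
    split_ifs with hn
    · exact ⟨1, by simp [hn]⟩
    · exact ⟨0, by simp⟩
  | succ j ih =>
    intro n
    choose y hy using ih
    choose z hz using h1
    refine ⟨∑ i ∈ range (n + 1), y i * z (n - i), ?_⟩
    rw [powCoeff_succ, sum_mul, Int.cast_sum]
    refine sum_congr rfl fun i hi => ?_
    rw [mem_range] at hi
    rw [Int.cast_mul, ← hy, ← hz, show n + (j + 1) = i + j + (n - i + 1) by omega,
      pow_add (M : ℚ) (i + j) (n - i + 1)]
    ring

/-- The powers converge. -/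
theorem hasSum_powCoeff {a : ℕ → ℚ} {C : ℝ} (hC : 0 ≤ C)
    (h : ∀ n, |(a n : ℝ)| ≤ C ^ (n + 1)) {x : ℂ} (hx : 2 * C * ‖x‖ < 1) {y : ℂ}
    (hy : HasSum (fun n => (a n : ℂ) * x ^ n) y) :
    ∀ j, HasSum (fun n => (powCoeff a j n : ℂ) * x ^ n) (y ^ j) := by
  have hsum : ∀ j, Summable fun n => ‖(powCoeff a j n : ℂ) * x ^ n‖ := fun j => by
    refine Summable.of_nonneg_of_le (fun n => norm_nonneg _) (fun n => ?_)
      ((summable_geometric_of_lt_one (by positivity) hx).mul_left ((2 * C) ^ j))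
    rw [norm_mul, norm_pow, Complex.norm_ratCast, mul_pow (2 * C) ‖x‖, ← mul_assoc, ← pow_add,
      add_comm j n]
    exact mul_le_mul_of_nonneg_right (abs_powCoeff_le hC h j n) (by positivity)
  intro j
  induction j with
  | zero =>
    rw [pow_zero]
    refine (hasSum_ite_eq 0 (1 : ℂ)).congr_fun fun n => ?_
    rw [powCoeff_zero]
    split_ifs with hn
    · simp [hn]
    · simp
  | succ j ih =>
    have hya : Summable fun n => ‖(a n : ℂ) * x ^ n‖ := by
      refine (hsum 1).congr fun n => ?_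
      rw [powCoeff, pow_one, PowerSeries.coeff_mk]
    have h2 : HasSum (fun n => ∑ i ∈ range (n + 1),
        (powCoeff a j i : ℂ) * x ^ i * ((a (n - i) : ℂ) * x ^ (n - i))) (y ^ j * y) := by
      have h3 := (summable_norm_sum_mul_range_of_summable_norm (hsum j) hya).of_norm.hasSum
      rwa [← tsum_mul_tsum_eq_tsum_sum_range_of_summable_norm (hsum j) hya, ih.tsum_eq,
        hy.tsum_eq] at h3
    rw [pow_succ]
    refine h2.congr_fun fun n => ?_
    rw [powCoeff_succ, Rat.cast_sum, sum_mul]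
    refine sum_congr rfl fun i hi => ?_
    rw [mem_range] at hi
    obtain ⟨t, rfl⟩ := Nat.exists_eq_add_of_le (Nat.le_of_lt_succ hi)
    rw [Rat.cast_mul, pow_add, Nat.add_sub_cancel_left]
    ring

/-- The auxiliary series `∑ A d j X ^ d f ^ j`. -/
def auxSeries (a : ℕ → ℚ) (E J : ℕ) (A : ℕ → ℕ → ℤ) : PowerSeries ℚ :=
  ∑ d ∈ range E, ∑ j ∈ range J,
    (A d j : PowerSeries ℚ) * PowerSeries.X ^ d * PowerSeries.mk a ^ j

theorem coeff_auxSeries (a : ℕ → ℚ) (E J : ℕ) (A : ℕ → ℕ → ℤ) (n : ℕ) :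
    PowerSeries.coeff n (auxSeries a E J A) =
      ∑ d ∈ range E, ∑ j ∈ range J, (A d j : ℚ) * if d ≤ n then powCoeff a j (n - d) else 0 := by
  rw [auxSeries, map_sum]
  refine sum_congr rfl fun d _ => ?_
  rw [map_sum]
  refine sum_congr rfl fun j _ => ?_
  rw [← map_intCast (PowerSeries.C (R := ℚ)), mul_assoc, PowerSeries.coeff_C_mul,
    PowerSeries.coeff_X_pow_mul']
  rfl

theorem hasSum_auxSeries {a : ℕ → ℚ} {C : ℝ} (hC : 0 ≤ C)
    (h : ∀ n, |(a n : ℝ)| ≤ C ^ (n + 1)) {x : ℂ} (hx : 2 * C * ‖x‖ < 1) {y : ℂ}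
    (hy : HasSum (fun n => (a n : ℂ) * x ^ n) y) (E J : ℕ) (A : ℕ → ℕ → ℤ) :
    HasSum (fun n => ((PowerSeries.coeff n (auxSeries a E J A) : ℚ) : ℂ) * x ^ n)
      (∑ d ∈ range E, ∑ j ∈ range J, (A d j : ℂ) * x ^ d * y ^ j) := by
  have hterm : ∀ d j, HasSum (fun n => (A d j : ℂ) *
      ((if d ≤ n then (powCoeff a j (n - d) : ℂ) else 0) * x ^ n))
      ((A d j : ℂ) * x ^ d * y ^ j) := fun d j => by
    rw [mul_assoc]
    refine HasSum.mul_left _ ?_
    refine (Function.Injective.hasSum_iff (add_left_injective d) fun n hn => ?_).1 ?_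
    · rw [if_neg, zero_mul]
      intro hle
      exact hn ⟨n - d, Nat.sub_add_cancel hle⟩
    · refine ((hasSum_powCoeff hC h hx hy j).mul_left (x ^ d)).congr_fun fun n => ?_
      simp only [Function.comp_apply, le_add_iff_nonneg_left, zero_le, if_true,
        Nat.add_sub_cancel, pow_add]
      ring
  refine (hasSum_sum fun d _ => hasSum_sum fun j _ => hterm d j).congr_fun fun n => ?_
  simp only [coeff_auxSeries, Rat.cast_sum, sum_mul]
  refine sum_congr rfl fun d _ => sum_congr rfl fun j _ => ?_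
  rw [Rat.cast_mul, Rat.cast_intCast]
  split_ifs <;> simp [mul_assoc]

end FA.AndreAlgebraicity
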