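import Fermat.Agent.AndreAlgebraicity.Main
import Fermat.Agent.Bertrandias.Converse

/-!
# Exactness and an example

The lacunary series `∑ x ^ (2 ^ j)` is uniformised by the identity on the unit disc and is
transcendental: sums of `m` powers of two spread far apart cannot be moved by a bounded shift to
sums of at most `m` powers of two. The series of the central binomial coefficients becomes
`1 / (1 - 2 w)` under `x = w - w ^ 2`.
-/

set_option autoImplicit false

noncomputable section

namespace FA.AndreAlgebraicity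

open Finset Filter
open scoped Topology Nat

/-- The number of binary digits one. -/
def binWeight (n : ℕ) : ℕ := (Nat.digits 2 n).sum

theorem binWeight_rec (n : ℕ) : binWeight n = n % 2 + binWeight (n / 2) := by
  rcases Nat.eq_zero_or_pos n with rfl | hn
  · simp [binWeight]
  · rw [binWeight, Nat.digits_def' one_lt_two hn, List.sum_cons, binWeight]

theorem binWeight_le_self (n : ℕ) : binWeight n ≤ n := Nat.digit_sum_le 2 n

theorem binWeight_pos {n : ℕ} (hn : 0 < n) : 0 < binWeight n := by
  induction n using Nat.strong_induction_on with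
  | _ n ih =>
    rw [binWeight_rec]
    rcases Nat.eq_zero_or_pos (n % 2) with h | h
    · have := ih (n / 2) (by omega) (by omega)
      omega
    · omega

theorem binWeight_pow_mul_add (J : ℕ) :
    ∀ {a b : ℕ}, b < 2 ^ J → binWeight (2 ^ J * a + b) = binWeight a + binWeight b := by
  induction J with
  | zero =>
    intro a b hb
    obtain rfl : b = 0 := by simpa using hb
    simp [binWeight]
  | succ J ih =>
    intro a b hb
    rw [binWeight_rec, binWeight_rec b]
    have hb' : b / 2 < 2 ^ J := by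
      rw [pow_succ] at hb
      omega
    rw [show 2 ^ (J + 1) * a + b = b + 2 * (2 ^ J * a) by ring, Nat.add_mul_mod_self_left,
      Nat.add_mul_div_left _ _ two_pos, add_comm (b / 2), ih hb']
    omega

theorem binWeight_two_pow (e : ℕ) : binWeight (2 ^ e) = 1 := by
  have h := binWeight_pow_mul_add e (a := 1) (b := 0) (Nat.two_pow_pos e)
  rw [mul_one, add_zero] at h
  rw [h]
  simp [binWeight]

theorem binWeight_eq_sub (n : ℕ) : padicValNat 2 n ! + binWeight n = n := by
  have : Fact (Nat.Prime 2) := ⟨Nat.prime_two⟩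
  have h := sub_one_mul_padicValNat_factorial (p := 2) n
  rw [Nat.add_one_sub_one, one_mul] at h
  rw [h, binWeight]
  exact Nat.sub_add_cancel (Nat.digit_sum_le 2 n)

theorem binWeight_add_le (a b : ℕ) : binWeight (a + b) ≤ binWeight a + binWeight b := by
  have : Fact (Nat.Prime 2) := ⟨Nat.prime_two⟩
  have h : padicValNat 2 a ! + padicValNat 2 b ! ≤ padicValNat 2 (a + b) ! := by
    rw [← Nat.add_choose_mul_factorial_mul_factorial a b,
      padicValNat.mul (mul_ne_zero (Nat.choose_pos (Nat.le_add_left b a)).ne'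
        a.factorial_ne_zero) b.factorial_ne_zero,
      padicValNat.mul (Nat.choose_pos (Nat.le_add_left b a)).ne' a.factorial_ne_zero]
    omega
  have := binWeight_eq_sub a
  have := binWeight_eq_sub b
  have := binWeight_eq_sub (a + b)
  omega

theorem binWeight_succ (n : ℕ) :
    binWeight n + 1 = binWeight (n + 1) + padicValNat 2 (n + 1) := by
  have : Fact (Nat.Prime 2) := ⟨Nat.prime_two⟩
  have h1 := binWeight_eq_sub n
  have h2 := binWeight_eq_sub (n + 1)
  rw [Nat.factorial_succ, padicValNat.mul n.succ_ne_zero n.factorial_ne_zero] at h2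
  simp only [Nat.succ_eq_add_one] at h2
  omega

/-- The coefficients of `∑ x ^ (2 ^ j)`. -/
def gapCoeff (n : ℕ) : ℤ := if n = 2 ^ Nat.log 2 n then 1 else 0

theorem gapCoeff_zero : gapCoeff 0 = 0 := by simp [gapCoeff]

theorem gapCoeff_two_pow (e : ℕ) : gapCoeff (2 ^ e) = 1 := by
  rw [gapCoeff, Nat.log_pow one_lt_two, if_pos rfl]

theorem gapCoeff_succ (n : ℕ) : gapCoeff (n + 1) = PolyaRationality.lacunaryCoeff n := rfl

theorem gapCoeff_nonneg (n : ℕ) : 0 ≤ gapCoeff n := by rw [gapCoeff]; split_ifs <;> simp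

theorem binWeight_le_of_powCoeff_ne_zero :
    ∀ (j n : ℕ), powCoeff (fun k => (gapCoeff k : ℚ)) j n ≠ 0 → binWeight n ≤ j := by
  intro j
  induction j with
  | zero =>
    intro n hn
    rw [powCoeff_zero] at hn
    obtain rfl : n = 0 := by by_contra h; exact hn (if_neg h)
    simp [binWeight]
  | succ j ih =>
    intro n hn
    rw [powCoeff_succ] at hn
    obtain ⟨i, hi, hne⟩ := exists_ne_zero_of_sum_ne_zero hn
    rw [mem_range] at hi
    rw [mul_ne_zero_iff, Int.cast_ne_zero] at hne
    have h1 : binWeight (n - i) = 1 := by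
      have h := hne.2
      rw [gapCoeff] at h
      split_ifs at h with he
      · rw [he, binWeight_two_pow]
      · exact absurd rfl h
    have h2 := binWeight_add_le i (n - i)
    rw [Nat.add_sub_cancel' (by omega), h1] at h2
    exact h2.trans (Nat.add_le_add_right (ih i hne.1) 1)

theorem powCoeff_gap_nonneg : ∀ j n, 0 ≤ powCoeff (fun k => (gapCoeff k : ℚ)) j n := by
  intro j
  induction j with
  | zero => intro n; rw [powCoeff_zero]; split_ifs <;> simp
  | succ j ih =>
    intro n
    rw [powCoeff_succ]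
    exact sum_nonneg fun i _ => mul_nonneg (ih i) (Int.cast_nonneg (gapCoeff_nonneg _))

/-- A sum of `m` powers of two, the `i`-th being `2 ^ (J i)`. -/
def spread (J : ℕ) : ℕ → ℕ
  | 0 => 0
  | m + 1 => spread J m + 2 ^ (J * (m + 1))

theorem spread_spec (J : ℕ) (hJ : 2 ≤ J) (m : ℕ) :
    2 * spread J m < 2 ^ (J * (m + 1)) ∧ 2 ^ J ∣ spread J m ∧ binWeight (spread J m) = m ∧
      1 ≤ powCoeff (fun k => (gapCoeff k : ℚ)) m (spread J m) := by
  induction m with
  | zero =>
    refine ⟨by simp [spread], dvd_zero _, by simp [spread, binWeight], ?_⟩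
    simp [spread, powCoeff_zero]
  | succ m ih =>
    obtain ⟨h1, h2, h3, h4⟩ := ih
    refine ⟨?_, ?_, ?_, ?_⟩
    · rw [show spread J (m + 1) = spread J m + 2 ^ (J * (m + 1)) from rfl, Nat.mul_add J (m + 1) 1,
        mul_one, pow_add]
      have hJ4 : 2 ^ 2 ≤ 2 ^ J := Nat.pow_le_pow_right two_pos hJ
      calc 2 * (spread J m + 2 ^ (J * (m + 1))) < 2 ^ (J * (m + 1)) * 4 := by
            have := Nat.two_pow_pos (J * (m + 1))
            omega
        _ ≤ 2 ^ (J * (m + 1)) * 2 ^ J := Nat.mul_le_mul_left _ hJ4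
    · exact dvd_add h2 (pow_dvd_pow 2 (Nat.le_mul_of_pos_right _ (Nat.succ_pos m)))
    · rw [show spread J (m + 1) = 2 ^ (J * (m + 1)) * 1 + spread J m by rw [spread]; ring,
        binWeight_pow_mul_add _ (by omega), h3]
      simp [binWeight, add_comm]
    · rw [show spread J (m + 1) = spread J m + 2 ^ (J * (m + 1)) from rfl, powCoeff_succ]
      refine h4.trans (le_trans (le_of_eq ?_) (single_le_sum (fun i _ =>
        mul_nonneg (powCoeff_gap_nonneg m i) (Int.cast_nonneg (gapCoeff_nonneg _)))
        (mem_range.2 (show spread J m < spread J m + 2 ^ (J * (m + 1)) + 1 by omega))))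
      rw [Nat.add_sub_cancel_left, gapCoeff_two_pow, Int.cast_one, mul_one]

/-- **`∑ x ^ (2 ^ j)` is transcendental over `ℚ(x)`.** -/
theorem transcendental_gap :
    Transcendental (Polynomial ℚ) (PowerSeries.mk fun n => (gapCoeff n : ℚ)) := by
  rintro ⟨P, hP, hPf⟩
  obtain ⟨m, hm⟩ : ∃ m, m = P.natDegree := ⟨_, rfl⟩
  have htop : P.coeff m ≠ 0 := hm ▸ Polynomial.leadingCoeff_ne_zero.2 hP
  obtain ⟨d₀, hd₀⟩ : ∃ d₀, d₀ = (P.coeff m).natDegree := ⟨_, rfl⟩
  obtain ⟨D, hD⟩ : ∃ D, D = ∑ j ∈ range (m + 1), (P.coeff j).natDegree + 1 := ⟨_, rfl⟩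
  have hdeg : ∀ j ≤ m, (P.coeff j).natDegree < D := fun j hj => by
    have := single_le_sum (f := fun j => (P.coeff j).natDegree) (fun _ _ => Nat.zero_le _)
      (show j ∈ range (m + 1) from mem_range.2 (Nat.lt_succ_of_le hj))
    omega
  obtain ⟨J, hJ⟩ : ∃ J, J = D + m + 1 := ⟨_, rfl⟩
  obtain ⟨ht1, ht2, ht3, ht4⟩ := spread_spec J (by omega) m
  obtain ⟨t, ht⟩ : ∃ t, t = spread J m := ⟨_, rfl⟩
  rw [← ht] at ht1 ht2 ht3 ht4
  have hJD : D < 2 ^ J := lt_of_lt_of_le Nat.lt_two_pow_self
    (Nat.pow_le_pow_right two_pos (by omega))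
  -- the coefficient at `d₀ + t`
  have hzero : ∀ j ≤ m, ∀ d < D, d ≤ d₀ + t → (j, d) ≠ (m, d₀) →
      powCoeff (fun k => (gapCoeff k : ℚ)) j (d₀ + t - d) = 0 := by
    intro j hj d hd hle hne
    by_contra h
    have hw := binWeight_le_of_powCoeff_ne_zero j _ h
    have hd₀' : d₀ < D := hd₀ ▸ hdeg m le_rfl
    rcases lt_trichotomy d d₀ with hlt | rfl | hgt
    · obtain ⟨t', rfl⟩ := ht2
      rw [show d₀ + 2 ^ J * t' - d = 2 ^ J * t' + (d₀ - d) by omega,
        binWeight_pow_mul_add J (by omega)] at hw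
      have h0 := binWeight_pow_mul_add J (a := t') (b := 0) (Nat.two_pow_pos J)
      rw [add_zero, ht3] at h0
      have := binWeight_pos (show 0 < d₀ - d by omega)
      have : binWeight 0 = 0 := by simp [binWeight]
      omega
    · rw [Nat.add_sub_cancel_left, ht3] at hw
      exact hne (by rw [show j = m by omega])
    · have htpos : 0 < t := by omega
      have : Fact (Nat.Prime 2) := ⟨Nat.prime_two⟩
      have hv : J ≤ padicValNat 2 t := (padicValNat_dvd_iff_le htpos.ne').1 ht2
      have h1 := binWeight_succ (t - 1)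
      rw [Nat.sub_add_cancel htpos] at h1
      have h2 := binWeight_add_le (d₀ + t - d) (d - d₀ - 1)
      rw [show d₀ + t - d + (d - d₀ - 1) = t - 1 by omega] at h2
      have := binWeight_le_self (d - d₀ - 1)
      omega
  have hcoef := congrArg (PowerSeries.coeff (d₀ + t)) hPf
  rw [Polynomial.aeval_eq_sum_range' (show P.natDegree < m + 1 by omega), map_sum, map_zero]
    at hcoef
  have hterm : ∀ j ≤ m, PowerSeries.coeff (d₀ + t)
      ((P.coeff j) • (PowerSeries.mk fun n => (gapCoeff n : ℚ)) ^ j) =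
      if j = m then (P.coeff m).coeff d₀ * powCoeff (fun k => (gapCoeff k : ℚ)) m t else 0 := by
    intro j hj
    rw [Algebra.smul_def, PowerSeries.algebraMap_apply', PowerSeries.coeff_mul,
      Nat.sum_antidiagonal_eq_sum_range_succ_mk]
    simp only [Algebra.algebraMap_self, PowerSeries.map_id, id_eq, Polynomial.coeff_coe]
    split_ifs with hjm
    · subst hjm
      rw [sum_eq_single d₀]
      · rw [Nat.add_sub_cancel_left]
        rfl
      · intro d hd hne
        rw [mem_range] at hd
        by_cases hdD : d < D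
        · refine mul_eq_zero_of_right _ ?_
          exact hzero j le_rfl d hdD (by omega) fun h => hne (Prod.mk.inj h).2
        · rw [Polynomial.coeff_eq_zero_of_natDegree_lt
            (lt_of_lt_of_le (hdeg j le_rfl) (not_lt.1 hdD)), zero_mul]
      · intro h
        exact absurd (mem_range.2 (by omega)) h
    · refine sum_eq_zero fun d hd => ?_
      rw [mem_range] at hd
      by_cases hdD : d < D
      · refine mul_eq_zero_of_right _ ?_
        exact hzero j hj d hdD (by omega) fun h => hjm (Prod.mk.inj h).1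
      · rw [Polynomial.coeff_eq_zero_of_natDegree_lt
          (lt_of_lt_of_le (hdeg j hj) (not_lt.1 hdD)), zero_mul]
  rw [sum_congr rfl fun j hj => hterm j (Nat.le_of_lt_succ (mem_range.1 hj)), sum_ite_eq',
    if_pos (mem_range.2 (Nat.lt_succ_self m)), mul_eq_zero] at hcoef
  rcases hcoef with h | h
  · exact htop (Polynomial.leadingCoeff_eq_zero.1 (by
      rw [Polynomial.leadingCoeff, ← hd₀]; exact h))
  · rw [h] at ht4
    linarith

/-- The lacunary series on the unit disc. -/
theorem hasSum_gap {x : ℂ} (hx : x ∈ Metric.ball (0 : ℂ) 1) :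
    HasSum (fun n => (gapCoeff n : ℂ) * x ^ n) (Bertrandias.tailFun 0 x) := by
  rw [Metric.mem_ball, dist_zero_right] at hx
  refine (hasSum_nat_add_iff' 1).1 ?_
  rw [sum_range_one, gapCoeff_zero, Int.cast_zero, zero_mul, sub_zero]
  exact (Bertrandias.hasSum_tailFun 0 hx).congr_fun fun n => by simp [gapCoeff_succ]

/-- The central binomial series near the origin. -/
theorem hasSum_centralBinom_sub_sq :
    ∀ᶠ w in 𝓝 (0 : ℂ), HasSum
      (fun n => ((n.centralBinom : ℚ) : ℂ) * ((w - w ^ 2) / 1) ^ n) (1 / (1 - 2 * w)) := by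
  have hc : ContinuousAt (fun w : ℂ => (1 - 4 * (w - w ^ 2)) ^ (1 / 2 : ℂ) + (1 - 2 * w)) 0 :=
    ((by fun_prop : ContinuousAt (fun w : ℂ => 1 - 4 * (w - w ^ 2)) 0).cpow continuousAt_const
      (by simp [Complex.mem_slitPlane_iff])).add (by fun_prop)
  have hne := hc.eventually_ne (show _ ≠ (0 : ℂ) by simp)
  have hsmall : ∀ᶠ w : ℂ in 𝓝 0, ‖4 * (w - w ^ 2)‖ < 1 :=
    (by fun_prop : Continuous fun w : ℂ => ‖4 * (w - w ^ 2)‖).continuousAt.eventually_lt_const
      (by simp)
  filter_upwards [hne, hsmall] with w hw hlt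
  have h := (Complex.one_div_one_sub_cpow_hasFPowerSeriesOnBall_zero (1 / 2)).hasSum
    (y := 4 * (w - w ^ 2))
    (by rw [Metric.mem_eball, edist_zero_right, ← ofReal_norm]; exact ENNReal.ofReal_lt_one.2 hlt)
  simp only [zero_add, FormalMultilinearSeries.ofScalars_apply_eq, smul_eq_mul] at h
  have hs : ((1 - 4 * (w - w ^ 2)) ^ (1 / 2 : ℂ)) ^ 2 = (1 - 2 * w) ^ 2 := by
    rw [one_div, show (2 : ℂ) = ((2 : ℕ) : ℂ) by norm_num, Complex.cpow_nat_inv_pow _ two_ne_zero]
    push_cast
    ring
  rcases sq_eq_sq_iff_eq_or_eq_neg.1 hs with he | he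
  · rw [← he]
    refine h.congr_fun fun n => ?_
    rw [div_one, mul_pow, ← mul_assoc, PolyaRationality.choose_half_mul, Rat.cast_natCast]
  · exact absurd (by rw [he]; ring) hw

/-- **Non-vacuity**: the criterion applies to the central binomial series. -/
theorem isAlgebraic_centralBinom :
    IsAlgebraic (Polynomial ℚ) (PowerSeries.mk fun n => (n.centralBinom : ℚ)) := by
  refine isAlgebraic_of_uniformisation (S := ∅) (Rinf := 2) (R := fun _ => 1)
    (u := fun _ => PowerSeries.X) (g₁ := fun _ => 1) (h₁ := fun w => w - w ^ 2)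
    (g₂ := fun w => 1 - 2 * w) (h₂ := fun _ => 1) (differentiableOn_const _)
    (Differentiable.differentiableOn (by fun_prop)) (Differentiable.differentiableOn (by fun_prop))
    (differentiableOn_const _) one_ne_zero (by simp) (by simp) hasSum_centralBinom_sub_sq
    (fun l _ n => padicNorm.of_nat _) ⟨1, by simp⟩ (by simp) (by simp) (by simp) ?_
  have hd : HasDerivAt (fun w : ℂ => w - w ^ 2) 1 0 := by
    simpa using (hasDerivAt_id (0 : ℂ)).fun_sub (hasDerivAt_pow 2 (0 : ℂ))
  simp only [div_one, hd.deriv, prod_empty, norm_one]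
  norm_num

end FA.AndreAlgebraicity
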